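import Fermat.Agent.S28.H446.Order

/-!
# S28 helper (helper446): the characteristic polynomial of a single-pole unit

Formal (no analysis) part of "Route U" for S28.  Let `A` be a domain, `t = q^{1/N}` and let
`φ : Θ → A((t))` be a finite family of "conjugates" such that

* `φ θ₀ = u(t^N)` where `u ∈ A((q))` has a pole of exact order `K > 0` with leading coefficient `1`;
* every other conjugate has positive order;
* all leading coefficients are units of `A`;
* every coefficient of `∏ θ, (X - φ θ)` is a polynomial in `j(t^N)` with coefficients in `A`.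

Then there is `P ∈ A[Y][X]`, monic in `X` of degree `card Θ`, with `P(j, u) = 0`, whose
coefficients satisfy the degree conditions of the irreducibility criterion
(`deg_Y a₁ = K` with leading coefficient `-1`, `deg_Y aᵢ < K` for the others, the constant term
has unit leading coefficient).  These conditions survive reduction modulo any proper ideal.
-/

set_option autoImplicit false

noncomputable section

namespace Fermat.Agent.S28.H446

open ModularCurve Polynomial

section

variable {A : Type*} [CommRing A] [IsDomain A]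

/-- Coefficients of a product of `X - C (φ θ)` with all `φ θ` of positive order: all coefficients
have order `≥ 0`, the non-leading ones have order `≥ 1`. -/
theorem orderTop_coeff_prod_X_sub_C {Θ : Type*} [DecidableEq Θ] (φ : Θ → LaurentSeries A)
    (S : Finset Θ) (hpos : ∀ θ ∈ S, ((1 : ℤ) : WithTop ℤ) ≤ (φ θ).orderTop) :
    (∀ i, ((0 : ℤ) : WithTop ℤ) ≤ ((∏ θ ∈ S, (X - C (φ θ))).coeff i).orderTop) ∧
      (∀ i, i < S.card → ((1 : ℤ) : WithTop ℤ) ≤ ((∏ θ ∈ S, (X - C (φ θ))).coeff i).orderTop) := by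
  induction S using Finset.induction_on with
  | empty =>
    constructor
    · intro i
      rw [Finset.prod_empty, Polynomial.coeff_one]
      split_ifs
      · rw [HahnSeries.orderTop_one]; rfl
      · rw [HahnSeries.orderTop_zero]; exact le_top
    · intro i hi
      simp at hi
  | insert a S ha ih =>
    have hposS : ∀ θ ∈ S, ((1 : ℤ) : WithTop ℤ) ≤ (φ θ).orderTop :=
      fun θ hθ => hpos θ (Finset.mem_insert_of_mem hθ)
    obtain ⟨ih0, ih1⟩ := ih hposS
    have hva : ((1 : ℤ) : WithTop ℤ) ≤ (φ a).orderTop := hpos a (Finset.mem_insert_self a S)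
    set Q := ∏ θ ∈ S, (X - C (φ θ)) with hQ
    have hprod : ∏ θ ∈ insert a S, (X - C (φ θ)) = Q * (X - C (φ a)) := by
      rw [Finset.prod_insert ha, mul_comm]
    have hmul : ∀ x : LaurentSeries A, ∀ c : WithTop ℤ, c ≤ x.orderTop →
        ((1 : ℤ) : WithTop ℤ) + c ≤ (x * φ a).orderTop := by
      intro x c hc
      rw [← ordV_apply, AddValuation.map_mul, ordV_apply, ordV_apply, add_comm]
      exact add_le_add hc hva
    have h01 : ((0 : ℤ) : WithTop ℤ) ≤ ((1 : ℤ) : WithTop ℤ) := by exact_mod_cast zero_le_one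
    have hsub : ∀ x y : LaurentSeries A, ∀ c : WithTop ℤ, c ≤ x.orderTop → c ≤ y.orderTop →
        c ≤ (x - y).orderTop := by
      intro x y c hx hy
      exact le_trans (le_min hx hy) HahnSeries.min_orderTop_le_orderTop_sub
    rw [hprod]
    constructor
    · intro i
      cases i with
      | zero =>
        rw [Polynomial.mul_coeff_zero]
        simp only [coeff_sub, coeff_X_zero, coeff_C_zero, zero_sub, mul_neg, HahnSeries.orderTop_neg]
        have := hmul _ _ (ih0 0)
        refine le_trans ?_ this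
        exact_mod_cast (by norm_num : (0 : ℤ) ≤ 1 + 0)
      | succ i =>
        rw [Polynomial.coeff_mul_X_sub_C]
        refine hsub _ _ _ (ih0 i) ?_
        have := hmul _ _ (ih0 (i + 1))
        refine le_trans ?_ this
        exact_mod_cast (by norm_num : (0 : ℤ) ≤ 1 + 0)
    · intro i hi
      rw [Finset.card_insert_of_notMem ha] at hi
      cases i with
      | zero =>
        rw [Polynomial.mul_coeff_zero]
        simp only [coeff_sub, coeff_X_zero, coeff_C_zero, zero_sub, mul_neg, HahnSeries.orderTop_neg]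
        have := hmul _ _ (ih0 0)
        refine le_trans ?_ this
        exact_mod_cast (by norm_num : (1 : ℤ) ≤ 1 + 0)
      | succ i =>
        rw [Polynomial.coeff_mul_X_sub_C]
        refine hsub _ _ _ (ih1 i (by omega)) ?_
        have := hmul _ _ (ih0 (i + 1))
        refine le_trans ?_ this
        exact_mod_cast (by norm_num : (1 : ℤ) ≤ 1 + 0)


theorem leadingCoeff_finset_prod {Θ : Type*} (S : Finset Θ) (f : Θ → LaurentSeries A) :
    (∏ θ ∈ S, f θ).leadingCoeff = ∏ θ ∈ S, (f θ).leadingCoeff := by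
  classical
  induction S using Finset.induction_on with
  | empty =>
    simp only [Finset.prod_empty]
    rw [show (1 : LaurentSeries A) = HahnSeries.single 0 1 from rfl,
      HahnSeries.leadingCoeff_of_single]
  | insert a S ha ih =>
    rw [Finset.prod_insert ha, Finset.prod_insert ha, HahnSeries.leadingCoeff_mul, ih]

omit [IsDomain A] in
theorem qExpand_comp_ev (N : ℕ) [NeZero N] (y : LaurentSeries A) :
    (qExpand A N).comp (ev y) = ev (qExpand A N y) := by
  refine Polynomial.ringHom_ext (fun a => ?_) ?_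
  · simp [ev]
  · simp [ev]

variable {Θ : Type*} [Fintype Θ] [DecidableEq Θ]

/-- **Characteristic polynomial of a single-pole unit.** -/
theorem exists_charPoly_data (N : ℕ) [NeZero N] (φ : Θ → LaurentSeries A) (θ0 : Θ)
    (u : LaurentSeries A) (K : ℕ) (hK : 0 < K)
    (hθ0 : φ θ0 = qExpand A N u)
    (hu : u.orderTop = ((-(K : ℤ) : ℤ))) (hu1 : u.leadingCoeff = 1)
    (hpos : ∀ θ, θ ≠ θ0 → ((1 : ℤ) : WithTop ℤ) ≤ (φ θ).orderTop)
    (hunit : ∀ θ, IsUnit (φ θ).leadingCoeff)
    (hsym : ∀ k, ∃ p : A[X],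
      ev (qExpand A N (jqModC A)) p = (∏ θ, (X - Polynomial.C (φ θ))).coeff k) :
    ∃ P : A[X][X], P.Monic ∧ P.natDegree = Fintype.card Θ ∧
      P.map (ev (qExpand A N (jqModC A))) = ∏ θ, (X - Polynomial.C (φ θ)) ∧
      P.eval₂ (ev (jqModC A)) u = 0 ∧
      (P.coeff (Fintype.card Θ - 1)).natDegree = K ∧
      (P.coeff (Fintype.card Θ - 1)).leadingCoeff = -1 ∧
      (∀ k, k + 1 < Fintype.card Θ → (P.coeff k).natDegree < K) ∧
      IsUnit (P.coeff 0).leadingCoeff := by
  classical
  set n := Fintype.card Θ with hn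
  have hn1 : 1 ≤ n := Fintype.card_pos_iff.mpr ⟨θ0⟩
  set jt := qExpand A N (jqModC A) with hjt
  have hNpos : 0 < N := Nat.pos_of_ne_zero (NeZero.ne N)
  have hjt_ord : jt.orderTop = ((-(N : ℤ) : ℤ)) := orderTop_qExpand_jqModC A N
  have hjt_lc : jt.leadingCoeff = 1 := leadingCoeff_qExpand_jqModC A N
  set PL : (LaurentSeries A)[X] := ∏ θ, (X - Polynomial.C (φ θ)) with hPL
  have hPLmonic : PL.Monic := Polynomial.monic_prod_X_sub_C _ _
  have hPLdeg : PL.natDegree = n := by
    rw [hPL, Polynomial.natDegree_prod_of_monic _ _ (fun i _ => Polynomial.monic_X_sub_C _)]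
    simp [hn]
  choose p hp using hsym
  -- the polynomial
  set P : A[X][X] := ∑ k ∈ Finset.range n, Polynomial.C (p k) * X ^ k + X ^ n with hP
  have hPcoeff : ∀ k, k < n → P.coeff k = p k := by
    intro k hk
    rw [hP, Polynomial.coeff_add, Polynomial.finsetSum_coeff, Polynomial.coeff_X_pow,
      if_neg (by omega), add_zero]
    simp only [Polynomial.coeff_C_mul_X_pow]
    rw [Finset.sum_ite_eq]
    simp [hk]
  have hPdeglt : (∑ k ∈ Finset.range n, Polynomial.C (p k) * (X : A[X][X]) ^ k).degree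
      < (n : WithBot ℕ) := by
    refine lt_of_le_of_lt (Polynomial.degree_sum_le _ _) ?_
    rw [Finset.sup_lt_iff (by exact_mod_cast WithBot.bot_lt_coe n)]
    intro k hk
    refine lt_of_le_of_lt (Polynomial.degree_C_mul_X_pow_le _ _) ?_
    exact_mod_cast Finset.mem_range.mp hk
  have hPmonic : P.Monic := by
    rw [hP, add_comm]
    exact Polynomial.monic_X_pow_add hPdeglt
  have hPnat : P.natDegree = n := by
    rw [hP, add_comm, Polynomial.natDegree_add_eq_left_of_degree_lt
      (by rw [Polynomial.degree_X_pow]; exact hPdeglt), Polynomial.natDegree_X_pow]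
  have hPmap : P.map (ev jt) = PL := by
    rw [hPLmonic.as_sum, hPLdeg, hP, Polynomial.map_add, Polynomial.map_sum,
      Polynomial.map_pow, Polynomial.map_X, add_comm]
    congr 1
    refine Finset.sum_congr rfl fun k _ => ?_
    rw [Polynomial.map_mul, Polynomial.map_C, Polynomial.map_pow, Polynomial.map_X, hp k]
  -- the root
  have hroot : P.eval₂ (ev (jqModC A)) u = 0 := by
    apply qExpand_injective (R := A) N
    rw [map_zero, Polynomial.hom_eval₂, qExpand_comp_ev, ← hθ0, Polynomial.eval₂_eq_eval_map,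
      hPmap, hPL, Polynomial.eval_prod]
    exact Finset.prod_eq_zero (Finset.mem_univ θ0) (by simp)
  -- orders of the conjugates
  have hφ0_ord : (φ θ0).orderTop = ((-(N : ℤ) * K : ℤ)) := by
    rw [hθ0, orderTop_qExpand N hu]
    congr 1
    ring
  have hφ0_lc : (φ θ0).leadingCoeff = 1 := by rw [hθ0, leadingCoeff_qExpand, hu1]
  have hKN : (0 : ℤ) < (N : ℤ) * K := by positivity
  -- factorisation
  set Q : (LaurentSeries A)[X] := ∏ θ ∈ Finset.univ.erase θ0, (X - Polynomial.C (φ θ)) with hQ
  have hfac : PL = Q * (X - Polynomial.C (φ θ0)) :=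
    (Finset.prod_erase_mul _ _ (Finset.mem_univ θ0)).symm
  have hcard : (Finset.univ.erase θ0).card = n - 1 := by
    rw [Finset.card_erase_of_mem (Finset.mem_univ θ0), Finset.card_univ]
  obtain ⟨hQ0, hQ1⟩ := orderTop_coeff_prod_X_sub_C φ (Finset.univ.erase θ0)
    (fun θ hθ => hpos θ (Finset.ne_of_mem_erase hθ))
  rw [hcard] at hQ1
  -- order estimate for a product with φ θ0
  have hmul : ∀ x : LaurentSeries A, ((1 : ℤ) : WithTop ℤ) ≤ x.orderTop →
      ((-(N : ℤ) * K + 1 : ℤ) : WithTop ℤ) ≤ (x * φ θ0).orderTop := by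
    intro x hx
    rw [← ordV_apply, AddValuation.map_mul, ordV_apply, ordV_apply, hφ0_ord]
    have : ((-(N : ℤ) * K + 1 : ℤ) : WithTop ℤ)
        = ((1 : ℤ) : WithTop ℤ) + ((-(N : ℤ) * K : ℤ) : WithTop ℤ) := by
      rw [← WithTop.coe_add]
      congr 1
      ring
    rw [this]
    exact add_le_add hx le_rfl
  have hone_le : ((-(N : ℤ) * K + 1 : ℤ) : WithTop ℤ) ≤ ((1 : ℤ) : WithTop ℤ) := by
    exact_mod_cast (by linarith : -(N : ℤ) * K + 1 ≤ 1)
  -- (c) lower coefficients
  have hlow : ∀ k, k + 1 < n → ((-(N : ℤ) * K + 1 : ℤ) : WithTop ℤ) ≤ (PL.coeff k).orderTop := by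
    intro k hk
    rw [hfac]
    cases k with
    | zero =>
      rw [Polynomial.mul_coeff_zero]
      simp only [coeff_sub, coeff_X_zero, coeff_C_zero, zero_sub, mul_neg,
        HahnSeries.orderTop_neg]
      exact hmul _ (hQ1 0 (by omega))
    | succ i =>
      rw [Polynomial.coeff_mul_X_sub_C]
      refine le_trans (le_min ?_ ?_) HahnSeries.min_orderTop_le_orderTop_sub
      · exact le_trans hone_le (hQ1 i (by omega))
      · exact hmul _ (hQ1 (i + 1) (by omega))
  -- (b) the next coefficient
  have hnext : PL.coeff (n - 1) = -(φ θ0) + -(∑ θ ∈ Finset.univ.erase θ0, φ θ) := by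
    have h1 : PL.nextCoeff = -∑ θ, φ θ := Polynomial.prod_X_sub_C_nextCoeff _
    rw [Polynomial.nextCoeff_of_natDegree_pos (by omega), hPLdeg] at h1
    rw [h1, ← Finset.add_sum_erase _ _ (Finset.mem_univ θ0), neg_add]
  have hrest : ((1 : ℤ) : WithTop ℤ) ≤ (-(∑ θ ∈ Finset.univ.erase θ0, φ θ)).orderTop := by
    rw [HahnSeries.orderTop_neg, ← ordV_apply]
    refine AddValuation.map_le_sum _ fun θ hθ => ?_
    rw [ordV_apply]
    exact hpos θ (Finset.ne_of_mem_erase hθ)
  have hlt : (-(φ θ0)).orderTop < (-(∑ θ ∈ Finset.univ.erase θ0, φ θ)).orderTop := by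
    rw [HahnSeries.orderTop_neg, hφ0_ord]
    refine lt_of_lt_of_le ?_ hrest
    exact_mod_cast (by linarith : -(N : ℤ) * K < 1)
  have hnext_ord : (PL.coeff (n - 1)).orderTop = ((-(N : ℤ) * K : ℤ)) := by
    rw [hnext, HahnSeries.orderTop_add_eq_left hlt, HahnSeries.orderTop_neg, hφ0_ord]
  have hnext_lc : (PL.coeff (n - 1)).leadingCoeff = -1 := by
    rw [leadingCoeff_eq_of_orderTop hnext_ord, hnext, HahnSeries.coeff_add,
      HahnSeries.coeff_eq_zero_of_lt_orderTop (x := -(∑ θ ∈ Finset.univ.erase θ0, φ θ))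
        (by rw [← hφ0_ord, ← HahnSeries.orderTop_neg]; exact hlt),
      add_zero, HahnSeries.coeff_neg, ← leadingCoeff_eq_of_orderTop hφ0_ord, hφ0_lc]
  -- (d) constant coefficient
  have hconst : PL.coeff 0 = ∏ θ, (-(φ θ)) := by
    rw [Polynomial.coeff_zero_eq_eval_zero, hPL, Polynomial.eval_prod]
    refine Finset.prod_congr rfl fun θ _ => ?_
    simp
  have hconst_lc : IsUnit (PL.coeff 0).leadingCoeff := by
    rw [hconst, leadingCoeff_finset_prod]
    rw [IsUnit.prod_univ_iff]
    intro θ
    rw [HahnSeries.leadingCoeff_neg]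
    exact (hunit θ).neg
  -- translate to degrees
  have key : ∀ k, p k ≠ 0 → (PL.coeff k).orderTop = ((-(N : ℤ) * (p k).natDegree : ℤ)) ∧
      (PL.coeff k).leadingCoeff = (p k).leadingCoeff := by
    intro k hk
    rw [← hp k]
    exact orderTop_ev_of_orderTop_neg hNpos hjt_ord hjt_lc hk
  have hp_ne : ∀ k, PL.coeff k ≠ 0 → p k ≠ 0 := by
    intro k hk h0
    apply hk
    rw [← hp k, h0, map_zero]
  have hnext_ne : PL.coeff (n - 1) ≠ 0 := by
    intro h0
    rw [h0, HahnSeries.orderTop_zero] at hnext_ord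
    exact WithTop.top_ne_coe hnext_ord
  have hconst_ne : PL.coeff 0 ≠ 0 := by
    intro h0
    rw [h0, HahnSeries.leadingCoeff_zero] at hconst_lc
    exact not_isUnit_zero hconst_lc
  refine ⟨P, hPmonic, hPnat, hPmap, hroot, ?_, ?_, ?_, ?_⟩
  · rw [hPcoeff (n - 1) (by omega)]
    obtain ⟨h1, -⟩ := key (n - 1) (hp_ne _ hnext_ne)
    rw [hnext_ord] at h1
    have h2 : -(N : ℤ) * K = -(N : ℤ) * (p (n - 1)).natDegree := by exact_mod_cast h1
    have h3 : (K : ℤ) = (p (n - 1)).natDegree := by
      have hN0 : (N : ℤ) ≠ 0 := by exact_mod_cast NeZero.ne N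
      have := mul_left_cancel₀ (neg_ne_zero.mpr hN0) h2
      exact this
    exact_mod_cast h3.symm
  · rw [hPcoeff (n - 1) (by omega)]
    obtain ⟨-, h2⟩ := key (n - 1) (hp_ne _ hnext_ne)
    rw [← h2, hnext_lc]
  · intro k hk
    rw [hPcoeff k (by omega)]
    by_cases h0 : p k = 0
    · rw [h0, Polynomial.natDegree_zero]
      exact hK
    · obtain ⟨h1, -⟩ := key k h0
      have h2 := hlow k hk
      rw [h1] at h2
      have h3 : -(N : ℤ) * K + 1 ≤ -(N : ℤ) * (p k).natDegree := by exact_mod_cast h2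
      have hN0 : (0 : ℤ) < N := by exact_mod_cast hNpos
      have h4 : ((p k).natDegree : ℤ) < K := by
        by_contra hcon
        rw [not_lt] at hcon
        nlinarith
      exact_mod_cast h4
  · rw [hPcoeff 0 (by omega)]
    obtain ⟨-, h2⟩ := key 0 (hp_ne _ hconst_ne)
    rw [← h2]
    exact hconst_lc

end

end Fermat.Agent.S28.H446
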