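import Mathlib
import Fermat.Prelude.Def_ModularCurve_X0ModL

/-!
# S28 helper (helper446): order bookkeeping for Laurent series

* `orderTop_eq_of_coeff` : characterisation of `orderTop` by coefficients.
* `orderTop_qExpand`, `leadingCoeff_qExpand` : `q ↦ q ^ N` multiplies orders by `N`.
* `orderTop_ev_of_orderTop_neg` : if `y` has order `-M < 0` and leading coefficient `1`, then
  `p(y)` has order `-M * natDegree p` and leading coefficient `leadingCoeff p`.
* `orderTop_jqModC`, `leadingCoeff_jqModC` : `j = q⁻¹ + ...`.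
-/

set_option autoImplicit false

noncomputable section

namespace Fermat.Agent.S28.H446

open ModularCurve HahnSeries Polynomial

section General

variable {A : Type*} [CommRing A]

theorem orderTop_eq_of_coeff {x : LaurentSeries A} {m : ℤ} (hm : x.coeff m ≠ 0)
    (hlt : ∀ i < m, x.coeff i = 0) : x.orderTop = m := by
  refine le_antisymm (orderTop_le_of_coeff_ne_zero hm) ?_
  rw [le_orderTop_iff_forall]
  intro i hi
  exact hlt i (by exact_mod_cast hi)

theorem leadingCoeff_eq_of_orderTop {x : LaurentSeries A} {m : ℤ} (h : x.orderTop = m) :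
    x.leadingCoeff = x.coeff m := by
  have hx : x ≠ 0 := by
    rintro rfl
    simp at h
  rw [leadingCoeff_eq]
  have := order_eq_orderTop_of_ne_zero hx
  rw [h] at this
  have h2 : x.order = m := by exact_mod_cast this
  rw [h2]

theorem coeff_ne_zero_of_orderTop {x : LaurentSeries A} {m : ℤ} (h : x.orderTop = m) :
    x.coeff m ≠ 0 := by
  have hx : x ≠ 0 := by
    rintro rfl
    simp at h
  rw [← leadingCoeff_eq_of_orderTop h]
  exact leadingCoeff_ne_zero.mpr hx

theorem coeff_eq_zero_of_lt_of_orderTop {x : LaurentSeries A} {m i : ℤ} (h : x.orderTop = m)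
    (hi : i < m) : x.coeff i = 0 :=
  coeff_eq_zero_of_lt_orderTop (by rw [h]; exact_mod_cast hi)

variable (N : ℕ) [NeZero N]

theorem orderTop_qExpand {x : LaurentSeries A} {m : ℤ} (h : x.orderTop = m) :
    (qExpand A N x).orderTop = ((N : ℤ) * m : ℤ) := by
  have hN : (0 : ℤ) < N := by exact_mod_cast Nat.pos_of_ne_zero (NeZero.ne N)
  refine orderTop_eq_of_coeff ?_ ?_
  · rw [qExpand_coeff_mul]
    exact coeff_ne_zero_of_orderTop h
  · intro i hi
    by_cases hd : (N : ℤ) ∣ i
    · obtain ⟨k, rfl⟩ := hd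
      rw [qExpand_coeff_mul]
      exact coeff_eq_zero_of_lt_of_orderTop h (lt_of_mul_lt_mul_left hi hN.le)
    · exact qExpand_coeff_of_not_dvd N x hd

theorem leadingCoeff_qExpand (x : LaurentSeries A) :
    (qExpand A N x).leadingCoeff = x.leadingCoeff := by
  by_cases hx : x = 0
  · subst hx
    simp
  · have h : x.orderTop = (x.order : ℤ) := (order_eq_orderTop_of_ne_zero hx).symm
    rw [leadingCoeff_eq_of_orderTop (orderTop_qExpand N h), qExpand_coeff_mul,
      leadingCoeff_eq]

theorem qExpand_ne_zero {x : LaurentSeries A} (hx : x ≠ 0) : qExpand A N x ≠ 0 := by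
  intro h
  exact hx (qExpand_injective N (by rw [h, map_zero]))

end General

section Domain

variable {A : Type*} [CommRing A] [IsDomain A]

/-- the valuation `orderTop` -/
abbrev ordV : AddValuation (LaurentSeries A) (WithTop ℤ) := HahnSeries.addVal ℤ A

theorem ordV_apply (x : LaurentSeries A) : ordV x = x.orderTop := HahnSeries.addVal_apply

theorem orderTop_C_mul_pow_ge {y : LaurentSeries A} {M : ℕ} (hy : y.orderTop = ((-(M : ℤ) : ℤ)))
    (c : A) (m d : ℕ) (hmd : m ≤ d) :
    ((-(M : ℤ) * d : ℤ) : WithTop ℤ) ≤ (HahnSeries.C c * y ^ m).orderTop := by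
  rw [← ordV_apply, AddValuation.map_mul, AddValuation.map_pow, ordV_apply, ordV_apply, hy]
  by_cases hc : c = 0
  · subst hc
    simp
  · have h1 : (HahnSeries.C c : LaurentSeries A).orderTop = (0 : ℤ) := by
      rw [HahnSeries.C_apply]
      exact orderTop_single hc
    rw [h1]
    have : ((0 : ℤ) : WithTop ℤ) + m • ((-(M : ℤ) : ℤ) : WithTop ℤ)
        = ((m * (-(M : ℤ)) : ℤ) : WithTop ℤ) := by
      rw [← WithTop.coe_nsmul, ← WithTop.coe_add]
      simp
    rw [this]
    have h2 : (-(M : ℤ) * d) ≤ (m * (-(M : ℤ))) := by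
      have : (m : ℤ) ≤ d := by exact_mod_cast hmd
      nlinarith [Int.natCast_nonneg M]
    exact_mod_cast h2

/-- evaluation `A[Y] → A((q))`, `Y ↦ y`, constants via `HahnSeries.C` (instance-free). -/
abbrev ev (y : LaurentSeries A) : A[X] →+* LaurentSeries A :=
  Polynomial.eval₂RingHom (HahnSeries.C : A →+* LaurentSeries A) y

omit [IsDomain A] in
theorem ev_apply (y : LaurentSeries A) (p : A[X]) :
    ev y p = Polynomial.eval₂ (HahnSeries.C : A →+* LaurentSeries A) y p := rfl

omit [IsDomain A] in
theorem ev_eq_sum_C (y : LaurentSeries A) (p : A[X]) :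
    ev y p = ∑ m ∈ Finset.range (p.natDegree + 1), HahnSeries.C (p.coeff m) * y ^ m := by
  rw [ev_apply, Polynomial.eval₂_eq_sum_range]

theorem orderTop_ev_ge {y : LaurentSeries A} {M : ℕ} (hy : y.orderTop = ((-(M : ℤ) : ℤ)))
    (p : A[X]) (d : ℕ) (hd : p.natDegree ≤ d) :
    ((-(M : ℤ) * d : ℤ) : WithTop ℤ) ≤ (ev y p).orderTop := by
  rw [ev_eq_sum_C, ← ordV_apply]
  refine AddValuation.map_le_sum _ fun m hm => ?_
  rw [ordV_apply]
  exact orderTop_C_mul_pow_ge hy _ m d (by
    have := Finset.mem_range.mp hm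
    omega)

theorem orderTop_pow_of_leadingCoeff_one {y : LaurentSeries A} {M : ℤ} (hy : y.orderTop = M)
    (hy1 : y.leadingCoeff = 1) (d : ℕ) :
    (y ^ d).orderTop = ((d * M : ℤ)) ∧ (y ^ d).leadingCoeff = 1 := by
  constructor
  · rw [← ordV_apply, AddValuation.map_pow, ordV_apply, hy, ← WithTop.coe_nsmul]
    simp
  · induction d with
    | zero => simp
    | succ d ih => rw [pow_succ, HahnSeries.leadingCoeff_mul, ih, hy1, one_mul]

/-- If `y` has order `-M < 0` and leading coefficient `1`, then for `p ≠ 0` the series `p(y)` has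
order `-M * natDegree p` and leading coefficient `leadingCoeff p`. -/
theorem orderTop_ev_of_orderTop_neg {y : LaurentSeries A} {M : ℕ} (hM : 0 < M)
    (hy : y.orderTop = ((-(M : ℤ) : ℤ))) (hy1 : y.leadingCoeff = 1) {p : A[X]} (hp : p ≠ 0) :
    (ev y p).orderTop = ((-(M : ℤ) * p.natDegree : ℤ)) ∧
      (ev y p).leadingCoeff = p.leadingCoeff := by
  set d := p.natDegree with hd
  have hlc : p.leadingCoeff ≠ 0 := Polynomial.leadingCoeff_ne_zero.mpr hp
  -- top term
  have htop : (HahnSeries.C p.leadingCoeff * y ^ d : LaurentSeries A).orderTop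
      = ((-(M : ℤ) * d : ℤ)) ∧
      (HahnSeries.C p.leadingCoeff * y ^ d : LaurentSeries A).leadingCoeff = p.leadingCoeff := by
    obtain ⟨h1, h2⟩ := orderTop_pow_of_leadingCoeff_one hy hy1 d
    constructor
    · rw [← ordV_apply, AddValuation.map_mul, ordV_apply, ordV_apply, h1, HahnSeries.C_apply,
        orderTop_single hlc, ← WithTop.coe_add]
      congr 1
      ring
    · rw [HahnSeries.leadingCoeff_mul, h2, HahnSeries.C_apply, leadingCoeff_of_single, mul_one]
  -- decomposition
  have hdec : ev y p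
      = HahnSeries.C p.leadingCoeff * y ^ d + ev y p.eraseLead := by
    conv_lhs => rw [← Polynomial.eraseLead_add_C_mul_X_pow p]
    rw [map_add, map_mul, map_pow, add_comm]
    simp [ev]
    rw [← hd]
  -- the rest has bigger order
  have hrest : ((-(M : ℤ) * d : ℤ) : WithTop ℤ) < (ev y p.eraseLead).orderTop := by
    by_cases hd0 : d = 0
    · have : p.eraseLead = 0 := by
        have h1 := Polynomial.eraseLead_natDegree_le p
        have h2 : p.eraseLead.natDegree = 0 := by omega
        by_contra hne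
        have h3 := Polynomial.eraseLead_natDegree_lt_or_eraseLead_eq_zero p
        rcases h3 with h3 | h3
        · omega
        · exact hne h3
      rw [this, map_zero, orderTop_zero]
      exact WithTop.coe_lt_top _
    · have h1 : p.eraseLead.natDegree ≤ d - 1 := Polynomial.eraseLead_natDegree_le p
      refine lt_of_lt_of_le ?_ (orderTop_ev_ge hy p.eraseLead (d - 1) h1)
      have : (-(M : ℤ) * d) < (-(M : ℤ) * ((d - 1 : ℕ) : ℤ)) := by
        have hd1 : ((d - 1 : ℕ) : ℤ) = (d : ℤ) - 1 := by omega
        rw [hd1]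
        have : (0 : ℤ) < M := by exact_mod_cast hM
        nlinarith
      exact_mod_cast this
  have hord : (ev y p).orderTop = ((-(M : ℤ) * d : ℤ)) := by
    rw [hdec, orderTop_add_eq_left (by rw [htop.1]; exact hrest), htop.1]
  refine ⟨hord, ?_⟩
  rw [leadingCoeff_eq_of_orderTop hord, hdec, HahnSeries.coeff_add,
    coeff_eq_zero_of_lt_orderTop hrest, add_zero, ← leadingCoeff_eq_of_orderTop htop.1, htop.2]

end Domain

section J

variable (A : Type*) [CommRing A] [Nontrivial A]

theorem orderTop_jqModC : (jqModC A).orderTop = ((-1 : ℤ)) := by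
  refine orderTop_eq_of_coeff ?_ ?_
  · rw [coeff_jqModC_neg_one]
    exact one_ne_zero
  · intro i hi
    exact coeff_jqModC_of_lt A hi

theorem leadingCoeff_jqModC : (jqModC A).leadingCoeff = 1 := by
  rw [leadingCoeff_eq_of_orderTop (orderTop_jqModC A), coeff_jqModC_neg_one]

variable (N : ℕ) [NeZero N]

theorem orderTop_qExpand_jqModC :
    (qExpand A N (jqModC A)).orderTop = ((-(N : ℤ) : ℤ)) := by
  rw [orderTop_qExpand N (orderTop_jqModC A)]
  congr 1
  ring

theorem leadingCoeff_qExpand_jqModC : (qExpand A N (jqModC A)).leadingCoeff = 1 := by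
  rw [leadingCoeff_qExpand, leadingCoeff_jqModC]

end J

end Fermat.Agent.S28.H446
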